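import Fermat.Agent.S38.H473.ChiSat
import Fermat.Agent.S38.H473.PtSpec
import Fermat.Agent.S38.IA.Hecke.GlueB3
import Fermat.Agent.S38.H113.Kill
import Fermat.Agent.S59.G4.H547.Red

/-!
# Row HARD, cell HECKE, leaves IA-NU / IA-ST: from points to the module  (helper473)

`iaNu_of_pt : IAFreeStatement → IANuPtStatement → IANuStatement`,
`iaSt_of_pt : IAFreeStatement → IAStPtStatement → IAStStatement`   (VERBATIM layer 3, v2).

Route: `V / chiRelIA χ V` has no `𝒪`-torsion (`ChiSat.lean`, from the basis `⟨g^e⟩ b_i` of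
IA-FREE), `T_Q` is reduced (`S59.G4.H547.red`), hence an element of `T_Q` vanishing at every
local `p`-adic point through the annihilator of `V / chiRelIA χ V` kills it (`H113.kill`).
-/

set_option autoImplicit false
set_option linter.unusedSectionVars false
set_option linter.style.haveILetI false

open Polynomial IsLocalRing CongruenceSubgroup
open scoped MatrixGroups

namespace Fermat.Agent.S38.H473

open Fermat.Agent.S59.Arch Fermat.Agent.S59.TW.H959 Fermat.Agent.S59.TW Fermat.Agent.S59.H765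
open Fermat.Agent.S59.TW.H653 Fermat.Agent.S59.TW.Aut
open Fermat.Agent.S38.IA Fermat.Agent.S38.IA.Hecke
open CuspForm

section Glue

variable {p : ℕ} [hpF : Fact p.Prime]
  {𝒪 : Type} [CommRing 𝒪] [IsDomain 𝒪] [IsDiscreteValuationRing 𝒪]
  [IsAdicComplete (maximalIdeal 𝒪) 𝒪]
  {ρbar : ResidualGaloisRep (ResidueField 𝒪)} {Smin Piv : Finset ℕ}
  {k r : ℕ} {pv : Fin k → ℕ} {qv : Fin r → ℕ}
  [NeZero (wilesLevel p .flat Smin (Smin ∪ Piv ∪ Finset.univ.image qv))]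
  {PQ : HeckePkg p 𝒪 ρbar .flat Smin (Smin ∪ Piv ∪ Finset.univ.image qv)}
  {α : Fin r → 𝒪} {V : Submodule 𝒪 (XIA p Smin pv qv 𝒪)} {h : ℕ}
  {a : PQ.T →ₐ[𝒪] Module.End 𝒪 V}
  [NeZero (MIA p Smin pv qv)]
  (hV : IsIAPart PQ α V)
  (hsurj : Function.Surjective (gRed (wilesLevel p .flat Smin Smin) (Sum.elim pv qv)))

/-- The diamond action of the pivot group `∏ (ℤ/pv i)ˣ` on `V`. -/
noncomputable def diaPiv : (∀ i : Fin k, (ZMod (pv i))ˣ) →* Module.End 𝒪 V :=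
  (diaLin hV hsurj).comp (MonoidHom.inl _ _)

theorem coe_diaPiv (a₁ : ∀ i : Fin k, (ZMod (pv i))ˣ) (v : V) :
    ((diaPiv hV hsurj a₁ v : V) : XIA p Smin pv qv 𝒪) = diaIA p Smin pv qv 𝒪 a₁ 1 v := rfl

/-- `chiRelIA χ V` is the image of the `χ`-relations of the pivot action on `V`. -/
theorem chiRelIA_eq_map (χ : (∀ i : Fin k, (ZMod (pv i))ˣ) →* 𝒪) :
    chiRelIA p Smin pv qv χ V =
      (chiRelSpan (V := V) (diaPiv hV hsurj) χ).map V.subtype := by
  unfold chiRelIA chiRelSpan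
  rw [Submodule.map_span]
  congr 1
  ext w
  constructor
  · rintro ⟨a₁, y, hy, rfl⟩
    exact ⟨diaPiv hV hsurj a₁ ⟨y, hy⟩ - χ a₁ • ⟨y, hy⟩, ⟨a₁, ⟨y, hy⟩, rfl⟩, rfl⟩
  · rintro ⟨_, ⟨a₁, y, rfl⟩, rfl⟩
    exact ⟨a₁, y, y.2, rfl⟩

theorem mem_chiRelIA_iff (χ : (∀ i : Fin k, (ZMod (pv i))ˣ) →* 𝒪) (v : V) :
    (v : XIA p Smin pv qv 𝒪) ∈ chiRelIA p Smin pv qv χ V ↔
      v ∈ chiRelSpan (diaPiv hV hsurj) χ := by
  rw [chiRelIA_eq_map hV hsurj χ, Submodule.mem_map]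
  constructor
  · rintro ⟨v', hv', e⟩
    have : v' = v := Subtype.ext e
    rw [← this]
    exact hv'
  · intro hv
    exact ⟨v, hv, rfl⟩

/-! ## The action of `T_Q` preserves the `χ`-relations -/

section Comm

variable (ha : IsIAAction PQ V h a)
  (hsig : ∀ q : ℕ, q.Prime →
    q ∣ wilesLevel p .flat Smin (Smin ∪ Piv ∪ Finset.univ.image qv) →
    q ∈ (↑(Smin ∪ Piv ∪ Finset.univ.image qv) : Set ℕ))
  (hM : ∀ ℓ : ℕ, ℓ.Prime →
    ¬ ℓ ∣ wilesLevel p .flat Smin (Smin ∪ Piv ∪ Finset.univ.image qv) →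
    ℓ ∉ (↑(Smin ∪ Piv ∪ Finset.univ.image qv) : Set ℕ) → ¬ ℓ ∣ MIA p Smin pv qv)

include ha hsig hM in
theorem a_diaPiv (t : PQ.T) (a₁ : ∀ i : Fin k, (ZMod (pv i))ˣ) (v : V) :
    a t (diaPiv hV hsurj a₁ v) = diaPiv hV hsurj a₁ (a t v) :=
  Subtype.ext (a_diaIA hV ha hsig hM a₁ 1 t v)

include ha hsig hM in
/-- The action of `T_Q` preserves the `χ`-relations. -/
theorem a_mem_chiRelSpan (χ : (∀ i : Fin k, (ZMod (pv i))ˣ) →* 𝒪) (t : PQ.T) (v : V)
    (h0 : v ∈ chiRelSpan (V := V) (diaPiv hV hsurj) χ) :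
    a t v ∈ chiRelSpan (V := V) (diaPiv hV hsurj) χ := by
  have hf : ∀ (a₁ : ∀ i : Fin k, (ZMod (pv i))ˣ) (y : V),
      a t (diaPiv hV hsurj a₁ y) = diaPiv hV hsurj a₁ (a t y) := by
    intro a₁ y
    exact a_diaPiv hV hsurj ha hsig hM t a₁ y
  have key := @map_mem_chiRelSpan 𝒪 _ V _ _ _ _ (diaPiv hV hsurj) χ (a t)
  exact key hf h0

/-- The `χ`-relations as a `T_Q`-submodule of `VMod V a`. -/
noncomputable def relSub (χ : (∀ i : Fin k, (ZMod (pv i))ˣ) →* 𝒪) :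
    Submodule PQ.T (VMod V a) where
  carrier := {v | VMod.val v ∈ chiRelSpan (V := V) (diaPiv hV hsurj) χ}
  add_mem' := by
    intro x y hx hy
    have h1 : VMod.val x + VMod.val y ∈ chiRelSpan (V := V) (diaPiv hV hsurj) χ :=
      Submodule.add_mem _ hx hy
    exact h1
  zero_mem' := by
    have h1 : (0 : V) ∈ chiRelSpan (V := V) (diaPiv hV hsurj) χ := Submodule.zero_mem _
    exact h1
  smul_mem' := by
    intro t v hv
    have h0 : VMod.val v ∈ chiRelSpan (V := V) (diaPiv hV hsurj) χ := hv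
    have h1 := a_mem_chiRelSpan hV hsurj ha hsig hM χ t (VMod.val v) h0
    show VMod.val (t • v) ∈ chiRelSpan (V := V) (diaPiv hV hsurj) χ
    rw [VMod.smul_def]
    exact h1

theorem mem_relSub (χ : (∀ i : Fin k, (ZMod (pv i))ˣ) →* 𝒪) (v : VMod V a) :
    v ∈ relSub hV hsurj ha hsig hM χ ↔
      VMod.val v ∈ chiRelSpan (V := V) (diaPiv hV hsurj) χ := Iff.rfl

end Comm

/-! ## Saturation of `chiRelIA χ V` in `V` -/

section Sat

theorem diaPiv_pow (c : ∀ i : Fin k, (ZMod (pv i))ˣ) :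
    diaPiv hV hsurj (fun i => c i ^ p ^ padicValNat p (pv i - 1)) = 1 := by
  refine LinearMap.ext fun v => Subtype.ext ?_
  rw [coe_diaPiv]
  have key := diaIA_pow p Smin pv qv 𝒪 hsurj c 1 (v : XIA p Smin pv qv 𝒪)
  have h1 : (fun j => (1 : ∀ j : Fin r, (ZMod (qv j))ˣ) j ^ p ^ padicValNat p (qv j - 1)) = 1 := by
    funext j
    exact one_pow _
  rw [h1] at key
  exact key

/-- The sum over `(Fin d × E₂) × E₁` is the sum over `Fin d × (E₁ × E₂)`. -/
theorem coe_sum_reindex {d : ℕ} (g₁ : ∀ i : Fin k, (ZMod (pv i))ˣ)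
    (g₂ : ∀ j : Fin r, (ZMod (qv j))ˣ) (b : Fin d → V)
    (c' : Fin d × (∀ j : Fin r, Fin (p ^ padicValNat p (qv j - 1))) →
      (∀ i : Fin k, Fin (p ^ padicValNat p (pv i - 1))) → 𝒪) :
    ((∑ j : Fin d × (∀ j : Fin r, Fin (p ^ padicValNat p (qv j - 1))),
        ∑ e : (∀ i : Fin k, Fin (p ^ padicValNat p (pv i - 1))),
          c' j e • diaPiv hV hsurj (fun i => g₁ i ^ (e i : ℕ))
            (diaLin hV hsurj (1, fun j' => g₂ j' ^ (j.2 j' : ℕ)) (b j.1)) : V) :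
        XIA p Smin pv qv 𝒪) =
      ∑ i : Fin d, ∑ e : (∀ i : Fin k, Fin (p ^ padicValNat p (pv i - 1))) ×
          (∀ j : Fin r, Fin (p ^ padicValNat p (qv j - 1))),
        c' (i, e.2) e.1 • diaIA p Smin pv qv 𝒪 (fun i' => g₁ i' ^ (e.1 i' : ℕ))
          (fun j => g₂ j ^ (e.2 j : ℕ)) (b i) := by
  rw [Submodule.coe_sum, Fintype.sum_prod_type]
  refine Finset.sum_congr rfl fun i _ => ?_
  rw [Fintype.sum_prod_type, Finset.sum_comm]
  refine Finset.sum_congr rfl fun e₂ _ => ?_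
  rw [Submodule.coe_sum]
  refine Finset.sum_congr rfl fun e₁ _ => ?_
  rw [Submodule.coe_smul]
  congr 1
  show diaIA p Smin pv qv 𝒪 (fun i => g₁ i ^ (e₁ i : ℕ)) 1
      (diaIA p Smin pv qv 𝒪 1 (fun j' => g₂ j' ^ (e₂ j' : ℕ)) (b i)) = _
  rw [← diaIA_mul p Smin pv qv 𝒪 hsurj, mul_one, one_mul]

include hpF in
/-- **`V / chiRelIA χ V` has no `𝒪`-torsion** (from the basis of IA-FREE). -/
theorem chiRelSpan_saturated (hpvP : ∀ i, (pv i).Prime) (hpvd : ∀ i, p ∣ pv i - 1)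
    (hqvP : ∀ j, (qv j).Prime) {d : ℕ} (hfree : IAFreeAt V d)
    (χ : (∀ i : Fin k, (ZMod (pv i))ˣ) →* 𝒪) (hχ : ∀ a₁, χ a₁ ^ p = 1)
    {l : 𝒪} (hl : l ≠ 0) {v : V}
    (hv : l • v ∈ chiRelSpan (V := V) (diaPiv hV hsurj) χ) :
    v ∈ chiRelSpan (V := V) (diaPiv hV hsurj) χ := by
  haveI : ∀ i, NeZero (pv i) := fun i => ⟨(hpvP i).ne_zero⟩
  haveI : ∀ j, NeZero (qv j) := fun j => ⟨(hqvP j).ne_zero⟩
  choose g₁ hg₁ hgen₁ using fun i => exists_primitive_root_units (hpvP i)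
  choose g₂ hg₂ _ using fun j => exists_primitive_root_units (hqvP j)
  have hm₁ : ∀ i, 0 < p ^ padicValNat p (pv i - 1) := fun i => pow_pos hpF.out.pos _
  have hm1 : ∀ i, 1 ≤ padicValNat p (pv i - 1) := fun i =>
    one_le_padicValNat_of_dvd (Nat.sub_ne_zero_of_lt (hpvP i).one_lt) (hpvd i)
  obtain ⟨b, hb⟩ := hfree g₁ g₂ hg₁ hg₂
  refine mem_chiRelSpan_of_smul_mem
    (E := (∀ i : Fin k, Fin (p ^ padicValNat p (pv i - 1))))
    (J := Fin d × (∀ j : Fin r, Fin (p ^ padicValNat p (qv j - 1))))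
    (γ := fun e i => g₁ i ^ (e i : ℕ))
    (b := fun j => diaLin hV hsurj (1, fun j' => g₂ j' ^ (j.2 j' : ℕ)) (b j.1))
    (comboMap_bijective_of_existsUnique ?_) ?_ hl hv
  · -- the basis
    intro y
    obtain ⟨c, hc, hcu⟩ := hb y
    refine ⟨fun j e => c j.1 (e, j.2), ?_, ?_⟩
    · apply Subtype.ext
      rw [coe_sum_reindex hV hsurj g₁ g₂ b]
      exact hc
    · intro c' hc'
      have h1 := congrArg Subtype.val hc'
      rw [coe_sum_reindex hV hsurj g₁ g₂ b] at h1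
      have h2 := hcu (fun i e => c' (i, e.2) e.1) h1
      funext j e
      rw [← h2]
  · -- the exponents are permuted, compatibly with `χ`
    intro a₁ e
    choose e₁ c₁ h₁ using fun i => exists_translate (hgen₁ i) (hm₁ i) (a₁ i) (e i)
    have h3 : a₁ * (fun i => g₁ i ^ (e i : ℕ)) =
        (fun i => g₁ i ^ (e₁ i : ℕ)) * fun i => c₁ i ^ p ^ padicValNat p (pv i - 1) :=
      funext h₁
    refine ⟨e₁, ?_, ?_⟩
    · rw [h3, map_mul, diaPiv_pow hV hsurj c₁, mul_one]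
    · have h5 : (fun i => c₁ i ^ p ^ padicValNat p (pv i - 1)) =
          (fun i => c₁ i ^ p ^ (padicValNat p (pv i - 1) - 1)) ^ p := by
        funext i
        rw [Pi.pow_apply, ← pow_mul, ← pow_succ, Nat.sub_add_cancel (hm1 i)]
      rw [h3, map_mul, h5, map_pow, hχ, mul_one]

end Sat

/-! ## From the points to the module -/

section Kill

variable [Finite (ResidueField 𝒪)] [CharZero 𝒪]
  (ha : IsIAAction PQ V h a)
  (hsig : ∀ q : ℕ, q.Prime →
    q ∣ wilesLevel p .flat Smin (Smin ∪ Piv ∪ Finset.univ.image qv) →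
    q ∈ (↑(Smin ∪ Piv ∪ Finset.univ.image qv) : Set ℕ))
  (hM : ∀ ℓ : ℕ, ℓ.Prime →
    ¬ ℓ ∣ wilesLevel p .flat Smin (Smin ∪ Piv ∪ Finset.univ.image qv) →
    ℓ ∉ (↑(Smin ∪ Piv ∪ Finset.univ.image qv) : Set ℕ) → ¬ ℓ ∣ MIA p Smin pv qv)

include hpF hV hsurj ha hsig hM in
/-- **KILL for `V / chiRelIA χ V`.**  An element of `T_Q` vanishing at every local `p`-adic
point through the annihilator of `V / chiRelIA χ V` maps `V` into `chiRelIA χ V`. -/
theorem kill_chiRelIA (hp𝒪 : (p : 𝒪) ∈ maximalIdeal 𝒪)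
    (hpvP : ∀ i, (pv i).Prime) (hpvd : ∀ i, p ∣ pv i - 1)
    (hqvP : ∀ j, (qv j).Prime) {d : ℕ} (hfree : IAFreeAt V d)
    (χ : (∀ i : Fin k, (ZMod (pv i))ˣ) →* 𝒪) (hχ : ∀ a₁, χ a₁ ^ p = 1) (t : PQ.T)
    (ht : ∀ P : Fermat.Agent.S31.PadicPoint p PQ.T, IsLocalHom P.χ →
      ThroughAnn PQ V a χ P.χ → P.χ t = 0) :
    ∀ v : V, ((a t v : V) : XIA p Smin pv qv 𝒪) ∈ chiRelIA p Smin pv qv χ V := by
  haveI : IsReduced PQ.T := Fermat.Agent.S59.G4.H547.red _ _ hsig 𝒪 PQ.θ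
  -- no `𝒪`-torsion
  have htf : ∀ l : 𝒪, l ≠ 0 → ∀ m : VMod V a ⧸ relSub hV hsurj ha hsig hM χ,
      algebraMap 𝒪 PQ.T l • m = 0 → m = 0 := by
    intro l hl m hm
    obtain ⟨v, rfl⟩ := Submodule.Quotient.mk_surjective _ m
    rw [← Submodule.Quotient.mk_smul, Submodule.Quotient.mk_eq_zero, mem_relSub,
      VMod.algebraMap_smul] at hm
    rw [Submodule.Quotient.mk_eq_zero, mem_relSub]
    exact chiRelSpan_saturated hV hsurj hpvP hpvd hqvP hfree χ hχ hl hm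
  -- the annihilator
  have hann : ∀ t' : PQ.T,
      (∀ v : V, ((a t' v : V) : XIA p Smin pv qv 𝒪) ∈ chiRelIA p Smin pv qv χ V) →
      ∀ m : VMod V a ⧸ relSub hV hsurj ha hsig hM χ, t' • m = 0 := by
    intro t' ht' m
    obtain ⟨v, rfl⟩ := Submodule.Quotient.mk_surjective _ m
    rw [← Submodule.Quotient.mk_smul, Submodule.Quotient.mk_eq_zero, mem_relSub,
      VMod.smul_def]
    exact (mem_chiRelIA_iff hV hsurj χ _).mp (ht' (VMod.val v))
  have key := Fermat.Agent.S38.H113.kill p hp𝒪 htf t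
    (fun P hP hP' => ht P hP (fun t' ht' => hP' t' (hann t' ht')))
  intro v
  have h1 := key (Submodule.Quotient.mk (VMod.mk v))
  rw [← Submodule.Quotient.mk_smul, Submodule.Quotient.mk_eq_zero, mem_relSub,
    VMod.smul_def] at h1
  exact (mem_chiRelIA_iff hV hsurj χ _).mpr h1

end Kill

end Glue

/-! ## The standing facts -/

section Facts

variable {p : ℕ} [hpF : Fact p.Prime]
  {𝒪 : Type} [CommRing 𝒪] [IsDomain 𝒪] [IsDiscreteValuationRing 𝒪]
  [IsAdicComplete (maximalIdeal 𝒪) 𝒪]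
  {ρbar : ResidualGaloisRep (ResidueField 𝒪)} {Smin Piv : Finset ℕ}
  {k r : ℕ} {pv : Fin k → ℕ} {qv : Fin r → ℕ}

include hpF in
/-- The primes, the Chinese remainder theorem and the levels (as in glue B, helper3). -/
theorem ia_basic_facts (h : ResidualHyp p 𝒪 ρbar Smin) (hPiv : IsPivotSet p ρbar Smin Piv)
    (hpv : Function.Injective pv) (hpvPiv : Finset.univ.image pv = Piv)
    {n : ℕ} (hq : IsTWSet p ρbar (Smin ∪ Piv) n qv) :
    (∀ i, (pv i).Prime) ∧ (∀ i, p ∣ pv i - 1) ∧ (∀ j, (qv j).Prime) ∧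
      Function.Surjective (gRed (wilesLevel p .flat Smin Smin) (Sum.elim pv qv)) ∧
      MIA p Smin pv qv ≠ 0 ∧
      (∀ q : ℕ, q.Prime →
        q ∣ wilesLevel p .flat Smin (Smin ∪ Piv ∪ Finset.univ.image qv) →
        q ∈ (↑(Smin ∪ Piv ∪ Finset.univ.image qv) : Set ℕ)) ∧
      (∀ ℓ : ℕ, ℓ.Prime →
        ¬ ℓ ∣ wilesLevel p .flat Smin (Smin ∪ Piv ∪ Finset.univ.image qv) →
        ℓ ∉ (↑(Smin ∪ Piv ∪ Finset.univ.image qv) : Set ℕ) → ¬ ℓ ∣ MIA p Smin pv qv) := by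
  obtain ⟨hqinj, hqv, -⟩ := id hq
  have hpvMem : ∀ i, pv i ∈ Piv := fun i => by
    rw [← hpvPiv]
    exact Finset.mem_image_of_mem pv (Finset.mem_univ i)
  have hpvP : ∀ i, (pv i).Prime := fun i => (hPiv (pv i) (hpvMem i)).1
  have hpvd : ∀ i, p ∣ pv i - 1 := fun i => (hPiv (pv i) (hpvMem i)).2.2.1
  have hqvP : ∀ j, (qv j).Prime := fun j => (hqv j).1
  have hPivP : ∀ q ∈ Piv, q.Prime := fun q hq' => (hPiv q hq').1
  have hQP : ∀ q ∈ Finset.univ.image qv, q.Prime := by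
    intro q hq'
    obtain ⟨j, -, rfl⟩ := Finset.mem_image.mp hq'
    exact hqvP j
  have hSigP : ∀ q ∈ Smin ∪ Piv ∪ Finset.univ.image qv, q.Prime := by
    intro q hq'
    rcases Finset.mem_union.mp hq' with h' | h'
    · rcases Finset.mem_union.mp h' with h'' | h''
      · exact h.hSmin q h''
      · exact hPivP q h''
    · exact hQP q h'
  have hsub : Smin ⊆ Smin ∪ Piv ∪ Finset.univ.image qv :=
    Finset.subset_union_left.trans Finset.subset_union_left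
  have hpvSig : ∀ i, pv i ∈ Smin ∪ Piv ∪ Finset.univ.image qv := fun i =>
    Finset.mem_union_left _ (Finset.mem_union_right _ (hpvMem i))
  have hqvSig : ∀ j, qv j ∈ Smin ∪ Piv ∪ Finset.univ.image qv := fun j =>
    Finset.mem_union_right _ (Finset.mem_image_of_mem qv (Finset.mem_univ j))
  have hprime : ∀ s, (Sum.elim pv qv s).Prime := by
    intro s
    cases s with
    | inl i => exact hpvP i
    | inr j => exact hqvP j
  have hinj : Function.Injective (Sum.elim pv qv) := by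
    intro s s' hss
    cases s with
    | inl i =>
      cases s' with
      | inl i' => exact congrArg Sum.inl (hpv hss)
      | inr j' =>
        exfalso
        have h1 : pv i = qv j' := hss
        exact (hqv j').2.1 (Finset.mem_union_right _ (h1 ▸ hpvMem i))
    | inr j =>
      cases s' with
      | inl i' =>
        exfalso
        have h1 : qv j = pv i' := hss
        exact (hqv j).2.1 (Finset.mem_union_right _ (h1.symm ▸ hpvMem i'))
      | inr j' => exact congrArg Sum.inr (hqinj hss)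
  have hN₀ : wilesLevel p .flat Smin Smin ≠ 0 := wilesLevel_ne_zero hpF.out h.hSmin h.hSmin
  refine ⟨hpvP, hpvd, hqvP, gRed_surjective _ _ hN₀ hinj hprime,
    gLevel_ne_zero _ _ hN₀ hprime, ?_, ?_⟩
  · intro q hq' hd'
    exact Finset.mem_coe.mpr
      (mem_of_prime_dvd_wilesLevel hpF.out h.hSmin hSigP h.hpSmin hsub q hq' hd')
  · intro ℓ hℓ _ hℓS hdvd
    apply hℓS
    rcases (Nat.Prime.dvd_mul hℓ).mp hdvd with h1 | h1
    · exact Finset.mem_coe.mpr (hsub (mem_of_prime_dvd_wilesLevel hpF.out h.hSmin h.hSmin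
        h.hpSmin (Finset.Subset.refl _) ℓ hℓ h1))
    · obtain ⟨s, -, hs⟩ := (Prime.dvd_finsetProd_iff hℓ.prime _).mp h1
      have h2 : ℓ = Sum.elim pv qv s := (Nat.prime_dvd_prime_iff_eq hℓ (hprime s)).mp hs
      rw [h2]
      cases s with
      | inl i => exact Finset.mem_coe.mpr (hpvSig i)
      | inr j => exact Finset.mem_coe.mpr (hqvSig j)

end Facts

/-! ## The glue -/

/-- **IA-NU from its pointwise form** (with IA-FREE). -/
theorem iaNu_of_pt (hFree : IAFreeStatement) (hPt : IANuPtStatement) : IANuStatement := by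
  intro p hpF hp5 𝒪 _ _ _ _ _ _ ρbar Smin h hflat Piv hPiv k pv hpv hpvPiv n r qv hq hNQ PQ α hα
    V hh a hV hhalf₁ hhalf₂ ha
  obtain ⟨hpvP, hpvd, hqvP, hsurj, hMne, hsig, hM⟩ := ia_basic_facts h hPiv hpv hpvPiv hq
  haveI : NeZero (MIA p Smin pv qv) := ⟨hMne⟩
  obtain ⟨d, hfree⟩ := hFree p hp5 𝒪 ρbar Smin h hflat Piv hPiv k pv hpv hpvPiv
    n r qv hq PQ α hα V hV
  have hpt := hPt p hp5 𝒪 ρbar Smin h hflat Piv hPiv k pv hpv hpvPiv
    n r qv hq PQ α hα V hh a hV hhalf₁ hhalf₂ ha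
  intro χ hχ t ht
  refine kill_chiRelIA hV hsurj ha hsig hM h.hp𝒪 hpvP hpvd hqvP hfree χ hχ.1 t ?_
  intro P hP hthrough
  letI : Algebra 𝒪 P.O := (P.χ.comp (algebraMap 𝒪 PQ.T)).toAlgebra
  let x : PQ.T →ₐ[𝒪] P.O := { P.χ with commutes' := fun _ => rfl }
  exact ht P.O x hP (hpt χ hχ P hP hthrough)

/-- **IA-ST from its pointwise form** (with IA-FREE). -/
theorem iaSt_of_pt (hFree : IAFreeStatement) (hPt : IAStPtStatement) : IAStStatement := by
  intro p hpF hp5 𝒪 _ _ _ _ _ _ ρbar Smin h hflat Piv hPiv hmin k pv hpv hpvPiv n r qv hq hNQ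
    PQ α hα V hh a hV hhalf₁ hhalf₂ ha
  obtain ⟨hpvP, hpvd, hqvP, hsurj, hMne, hsig, hM⟩ := ia_basic_facts h hPiv hpv hpvPiv hq
  haveI : NeZero (MIA p Smin pv qv) := ⟨hMne⟩
  obtain ⟨d, hfree⟩ := hFree p hp5 𝒪 ρbar Smin h hflat Piv hPiv k pv hpv hpvPiv
    n r qv hq PQ α hα V hV
  have hpt := hPt p hp5 𝒪 ρbar Smin h hflat Piv hPiv hmin k pv hpv hpvPiv
    n r qv hq PQ α hα V hh a hV hhalf₁ hhalf₂ ha
  intro q hqP Pl hPl φ hφ
  refine kill_chiRelIA hV hsurj ha hsig hM h.hp𝒪 hpvP hpvd hqvP hfree 1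
    (fun _ => by rw [MonoidHom.one_apply, one_pow]) _ ?_
  intro P hP hthrough
  exact hpt P hP hthrough q hqP Pl hPl φ hφ

end Fermat.Agent.S38.H473
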