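import Mathlib

/-!
# Row HARD, cell HECKE, leaves IA-NU / IA-ST: saturation of the `χ`-relations  (helper473)

Mathlib only.  `ρ : D →* End_𝒪 V` an action of a monoid `D`, `χ : D →* 𝒪` a character,
`chiRelSpan ρ χ` the `𝒪`-span of the `ρ(a) y - χ(a) y`.

If `V` has an `𝒪`-basis of the form `ρ(γ e) b_j` (`e ∈ E`, `j ∈ J`) where the `ρ(γ e)` are
permuted by every `ρ(a)` compatibly with `χ`, then `V / chiRelSpan ρ χ` embeds into `𝒪^J`:
* `exists_chiFunctional` : a linear map `Φ : V → 𝒪^J` with `Φ(ρ(a) y) = χ(a) Φ(y)` and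
  `Φ(∑ c_{j,e} ρ(γ e) b_j) = (∑_e c_{j,e} χ(γ e))_j`;
* `mem_chiRelSpan_of_smul_mem` : over a domain, `l ≠ 0` and `l y ∈ chiRelSpan` give
  `y ∈ chiRelSpan` (the quotient has no `𝒪`-torsion).
-/

set_option autoImplicit false
set_option linter.unusedSectionVars false

namespace Fermat.Agent.S38.H473

section ChiSat

variable {𝒪 : Type*} [CommRing 𝒪] {V : Type*} [AddCommGroup V] [Module 𝒪 V]
  {D : Type*} [Monoid D] (ρ : D →* Module.End 𝒪 V) (χ : D →* 𝒪)

/-- The `χ`-relations: the `𝒪`-span of the `ρ(a) y - χ(a) y`. -/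
def chiRelSpan : Submodule 𝒪 V :=
  Submodule.span 𝒪 {w | ∃ (a : D) (y : V), w = ρ a y - χ a • y}

theorem sub_mem_chiRelSpan (a : D) (y : V) : ρ a y - χ a • y ∈ chiRelSpan ρ χ :=
  Submodule.subset_span ⟨a, y, rfl⟩

/-- An `𝒪`-linear map commuting with the action maps the `χ`-relations to themselves. -/
theorem map_mem_chiRelSpan (f : V →ₗ[𝒪] V) (hf : ∀ (a : D) (y : V), f (ρ a y) = ρ a (f y))
    {y : V} (hy : y ∈ chiRelSpan ρ χ) : f y ∈ chiRelSpan ρ χ := by
  have h1 : chiRelSpan ρ χ ≤ (chiRelSpan ρ χ).comap f := by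
    refine Submodule.span_le.mpr ?_
    rintro w ⟨a, y', rfl⟩
    show f (ρ a y' - χ a • y') ∈ chiRelSpan ρ χ
    rw [map_sub, map_smul, hf]
    exact sub_mem_chiRelSpan ρ χ a (f y')
  exact h1 hy

variable {E J : Type*} [Fintype E] [Fintype J] (γ : E → D) (b : J → V)

/-- The map `c ↦ ∑ j, ∑ e, c j e • ρ (γ e) (b j)`. -/
noncomputable def comboMap : (J → E → 𝒪) →ₗ[𝒪] V where
  toFun c := ∑ j, ∑ e, c j e • ρ (γ e) (b j)
  map_add' c c' := by
    simp only [Pi.add_apply, add_smul, Finset.sum_add_distrib]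
  map_smul' l c := by
    simp only [Pi.smul_apply, smul_eq_mul, mul_smul, Finset.smul_sum, RingHom.id_apply]

theorem comboMap_apply (c : J → E → 𝒪) :
    comboMap ρ γ b c = ∑ j, ∑ e, c j e • ρ (γ e) (b j) := rfl

/-- The map `c ↦ (∑ e, c j e * χ (γ e))_j`. -/
noncomputable def chiEvalMap : (J → E → 𝒪) →ₗ[𝒪] (J → 𝒪) where
  toFun c j := ∑ e, c j e * χ (γ e)
  map_add' c c' := by
    funext j
    simp only [Pi.add_apply, add_mul, Finset.sum_add_distrib]
  map_smul' l c := by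
    funext j
    simp only [Pi.smul_apply, smul_eq_mul, mul_assoc, Finset.mul_sum, RingHom.id_apply]

theorem chiEvalMap_apply (c : J → E → 𝒪) (j : J) :
    chiEvalMap χ γ c j = ∑ e, c j e * χ (γ e) := rfl

theorem comboMap_single [DecidableEq J] [DecidableEq E] (j : J) (e : E) :
    comboMap ρ γ b (Pi.single j (Pi.single e 1)) = ρ (γ e) (b j) := by
  rw [comboMap_apply, Finset.sum_eq_single j, Finset.sum_eq_single e]
  · rw [Pi.single_eq_same, Pi.single_eq_same, one_smul]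
  · intro e' _ he'
    rw [Pi.single_eq_same, Pi.single_eq_of_ne he', zero_smul]
  · intro h
    exact absurd (Finset.mem_univ e) h
  · intro j' _ hj'
    refine Finset.sum_eq_zero fun e' _ => ?_
    rw [Pi.single_eq_of_ne hj', Pi.zero_apply, zero_smul]
  · intro h
    exact absurd (Finset.mem_univ j) h

theorem chiEvalMap_single [DecidableEq J] [DecidableEq E] (j : J) (e : E) :
    chiEvalMap (J := J) χ γ (Pi.single j (Pi.single e 1)) = Pi.single j (χ (γ e)) := by
  funext j'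
  rw [chiEvalMap_apply]
  by_cases hj : j' = j
  · subst hj
    rw [Pi.single_eq_same, Pi.single_eq_same, Finset.sum_eq_single e]
    · rw [Pi.single_eq_same, one_mul]
    · intro e' _ he'
      rw [Pi.single_eq_of_ne he', zero_mul]
    · intro h
      exact absurd (Finset.mem_univ e) h
  · rw [Pi.single_eq_of_ne hj, Pi.single_eq_of_ne hj]
    refine Finset.sum_eq_zero fun e' _ => ?_
    rw [Pi.zero_apply, zero_mul]

variable {ρ χ γ b}

/-- **The `χ`-functional.**  If `c ↦ ∑ c_{j,e} ρ(γ e) b_j` is bijective and the `ρ(γ e)` are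
permuted by the action compatibly with `χ`, there is `Φ : V → 𝒪^J` with
`Φ(ρ(a) y) = χ(a) Φ(y)`. -/
theorem exists_chiFunctional (hbij : Function.Bijective (comboMap ρ γ b))
    (hperm : ∀ (a : D) (e : E), ∃ e' : E, ρ (a * γ e) = ρ (γ e') ∧ χ (a * γ e) = χ (γ e')) :
    ∃ Φ : V →ₗ[𝒪] (J → 𝒪), (∀ c, Φ (comboMap ρ γ b c) = chiEvalMap χ γ c) ∧
      ∀ (a : D) (y : V), Φ (ρ a y) = χ a • Φ y := by
  classical
  set L := LinearEquiv.ofBijective (comboMap ρ γ b) hbij with hL
  have hLc : ∀ c, L c = comboMap ρ γ b c := fun c => rfl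
  set Φ : V →ₗ[𝒪] (J → 𝒪) := (chiEvalMap χ γ).comp L.symm.toLinearMap with hΦ
  have h1 : ∀ c, Φ (comboMap ρ γ b c) = chiEvalMap χ γ c := by
    intro c
    rw [hΦ, LinearMap.comp_apply, ← hLc]
    show chiEvalMap χ γ (L.symm (L c)) = _
    rw [LinearEquiv.symm_apply_apply]
  refine ⟨Φ, h1, ?_⟩
  intro a y
  -- reduce to an equality of linear maps on `J → E → 𝒪`
  have key : (Φ.comp (ρ a)).comp (comboMap ρ γ b) = (χ a • Φ).comp (comboMap ρ γ b) := by
    refine LinearMap.pi_ext' fun j => LinearMap.pi_ext' fun e => LinearMap.ext_ring ?_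
    show Φ (ρ a (comboMap ρ γ b (Pi.single j (Pi.single e 1)))) =
      χ a • Φ (comboMap ρ γ b (Pi.single j (Pi.single e 1)))
    obtain ⟨e', he1, he2⟩ := hperm a e
    rw [h1, comboMap_single, ← Module.End.mul_apply, ← map_mul, he1, ← comboMap_single ρ γ b j e',
      h1, chiEvalMap_single, chiEvalMap_single, ← he2, map_mul]
    funext j'
    by_cases hj : j' = j
    · subst hj
      rw [Pi.smul_apply, Pi.single_eq_same, Pi.single_eq_same, smul_eq_mul]
    · rw [Pi.smul_apply, Pi.single_eq_of_ne hj, Pi.single_eq_of_ne hj, smul_zero]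
  obtain ⟨c, rfl⟩ := hbij.2 y
  exact congrArg (fun f : (J → E → 𝒪) →ₗ[𝒪] (J → 𝒪) => f c) key

/-- The `χ`-functional kills the `χ`-relations. -/
theorem chiFunctional_eq_zero {Φ : V →ₗ[𝒪] (J → 𝒪)}
    (hΦ : ∀ (a : D) (y : V), Φ (ρ a y) = χ a • Φ y) {y : V} (hy : y ∈ chiRelSpan ρ χ) :
    Φ y = 0 := by
  have h1 : chiRelSpan ρ χ ≤ LinearMap.ker Φ := by
    refine Submodule.span_le.mpr ?_
    rintro w ⟨a, y', rfl⟩
    show Φ (ρ a y' - χ a • y') = 0
    rw [map_sub, map_smul, hΦ, sub_self]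
  exact h1 hy

/-- An element whose `χ`-coordinates vanish is a `χ`-relation. -/
theorem comboMap_mem_chiRelSpan (c : J → E → 𝒪) (hc : chiEvalMap χ γ c = 0) :
    comboMap ρ γ b c ∈ chiRelSpan ρ χ := by
  have hdecomp : comboMap ρ γ b c =
      (∑ j, ∑ e, c j e • (ρ (γ e) (b j) - χ (γ e) • b j)) +
        ∑ j, (∑ e, c j e * χ (γ e)) • b j := by
    rw [comboMap_apply, ← Finset.sum_add_distrib]
    refine Finset.sum_congr rfl fun j _ => ?_
    rw [Finset.sum_smul, ← Finset.sum_add_distrib]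
    refine Finset.sum_congr rfl fun e _ => ?_
    rw [smul_sub, mul_smul, sub_add_cancel]
  have h0 : ∑ j, (∑ e, c j e * χ (γ e)) • b j = 0 := by
    refine Finset.sum_eq_zero fun j _ => ?_
    have := congrFun hc j
    rw [chiEvalMap_apply] at this
    rw [this, Pi.zero_apply, zero_smul]
  rw [hdecomp, h0, add_zero]
  refine Submodule.sum_mem _ fun j _ => Submodule.sum_mem _ fun e _ => ?_
  exact Submodule.smul_mem _ _ (sub_mem_chiRelSpan ρ χ (γ e) (b j))

/-- **Saturation.**  Over a domain, the quotient `V / chiRelSpan ρ χ` has no `𝒪`-torsion. -/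
theorem mem_chiRelSpan_of_smul_mem [IsDomain 𝒪]
    (hbij : Function.Bijective (comboMap ρ γ b))
    (hperm : ∀ (a : D) (e : E), ∃ e' : E, ρ (a * γ e) = ρ (γ e') ∧ χ (a * γ e) = χ (γ e'))
    {l : 𝒪} (hl : l ≠ 0) {y : V} (hy : l • y ∈ chiRelSpan ρ χ) : y ∈ chiRelSpan ρ χ := by
  obtain ⟨Φ, hΦ1, hΦ2⟩ := exists_chiFunctional hbij hperm
  have h1 : Φ (l • y) = 0 := chiFunctional_eq_zero hΦ2 hy
  rw [map_smul] at h1
  have h2 : Φ y = 0 := by
    funext j
    have h3 := congrFun h1 j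
    rw [Pi.smul_apply, smul_eq_mul, Pi.zero_apply] at h3
    rcases mul_eq_zero.mp h3 with h4 | h4
    · exact absurd h4 hl
    · exact h4
  obtain ⟨c, rfl⟩ := hbij.2 y
  rw [hΦ1] at h2
  exact comboMap_mem_chiRelSpan c h2

/-- The bijectivity of `comboMap` is the unique-coordinates statement. -/
theorem comboMap_bijective_of_existsUnique
    (hb : ∀ y : V, ∃! c : J → E → 𝒪, y = ∑ j, ∑ e, c j e • ρ (γ e) (b j)) :
    Function.Bijective (comboMap ρ γ b) := by
  constructor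
  · intro c c' hcc
    obtain ⟨c₀, -, hu⟩ := hb (comboMap ρ γ b c)
    rw [hu c rfl, hu c' hcc]
  · intro y
    obtain ⟨c, hc, -⟩ := hb y
    exact ⟨c, hc.symm⟩

end ChiSat

end Fermat.Agent.S38.H473
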