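import Fermat.Agent.S38.H473.ChiSat
import Fermat.Agent.S38.IA.Hecke.GlueB3
import Fermat.Agent.S38.H113.Kill
import Fermat.Agent.S59.G4.H547.Red
import Fermat.Agent.S31.Defs

/-!
# Row S59 (moonshot), cell (B2) — the KILL glue of Ihara avoidance, GENERIC  (helper473)

The glue `IAFree → IANuPt → IANu`, `IAFree → IAStPt → IASt` of row HARD (`PtGlue.lean`) is
stated in the vocabulary of `Hecke/Spec3.lean`, which is hard-wired to the type `.flat` and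
carries `5 ≤ p` as a binder.  Neither is used: here is the same proof for

* ANY type `t : PType` and ANY set `Sig` (`PQ : HeckePkg p 𝒪 ρbar t Smin Sig`),
* ANY base level `N₀` (`K = KG p N₀ (Sum.elim pv qv) = Γ₀(N₀) ∩ Γ_H(pv ∪ qv)`),
* ANY sets `Tset`, `Uset` of the localisation `V`,
* ANY prime `p` (no `5 ≤ p`, not even `p ≠ 2`).

Objects (all reducible to the expanded vocabulary `diamondU (isMid_KG ..) (gLift ..)
(pairU a₁ a₂)`, so that any frozen `t`-generic twin of the Spec3 objects matches by `rfl`; for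
`N₀ = wilesLevel p .flat Smin Smin` they ARE the Spec3 objects, see `KillGenTest.lean`):
`XG`, `diaG`, `chiRelG`, `FreeAtG`.

Main results:
* `diaG_mem`, `a_diaG`, `diaLinG`, `VModG` : the generic twins of the pieces of glue B
  (`GlueB1/B2/B3`, helper3);
* `chiRelG_saturated` : `V / chiRelG χ V` has no `𝒪`-torsion (from the basis of FREE);
* `kill_gen` : an element of `T_Q` vanishing at every local `p`-adic point through the
  annihilator of `V / chiRelG χ V` maps `V` into `chiRelG χ V`;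
* `kill_gen_expanded` : the same with NO definition of this file in the statement.
-/

set_option autoImplicit false
set_option linter.unusedSectionVars false
set_option linter.style.haveILetI false

open Polynomial IsLocalRing CongruenceSubgroup
open scoped MatrixGroups

namespace Fermat.Agent.S38.H473.Gen

open Fermat.Agent.S59.Arch Fermat.Agent.S59.TW.H959 Fermat.Agent.S59.TW Fermat.Agent.S59.H765
open Fermat.Agent.S59.TW.H653 Fermat.Agent.S59.TW.Aut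
open Fermat.Agent.S38.IA Fermat.Agent.S38.IA.Hecke
open Fermat.Agent.S38.H473
open CuspForm

/-! ## The objects -/

section Obj

variable (p N₀ : ℕ) {k r : ℕ} (pv : Fin k → ℕ) (qv : Fin r → ℕ)

/-- The Betti module `X_K(𝒪) = Hom(K, 𝒪)`, `K = Γ₀(N₀) ∩ Γ_H(pv ∪ qv)`. -/
abbrev XG (𝒪 : Type) [CommRing 𝒪] : Type := Additive (KG p N₀ (Sum.elim pv qv)) →+ 𝒪

/-- The plain diamond operator of `(a₁, a₂) ∈ ∏ (ℤ/pv i)ˣ × ∏ (ℤ/qv j)ˣ` on `X_K(𝒪)`. -/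
noncomputable def diaG (𝒪 : Type) [CommRing 𝒪] (a₁ : ∀ i : Fin k, (ZMod (pv i))ˣ)
    (a₂ : ∀ j : Fin r, (ZMod (qv j))ˣ) (x : XG p N₀ pv qv 𝒪) : XG p N₀ pv qv 𝒪 :=
  diamondU (isMid_KG p N₀ (Sum.elim pv qv)) (gLift N₀ (Sum.elim pv qv) (pairU a₁ a₂)) x

/-- The `χ`-relations in `V`: the `𝒪`-span of the `⟨a₁⟩ y - χ(a₁) y`, `y ∈ V`. -/
noncomputable def chiRelG {𝒪 : Type} [CommRing 𝒪] (χ : (∀ i : Fin k, (ZMod (pv i))ˣ) →* 𝒪)
    (V : Submodule 𝒪 (XG p N₀ pv qv 𝒪)) : Submodule 𝒪 (XG p N₀ pv qv 𝒪) :=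
  Submodule.span 𝒪 {w | ∃ (a₁ : ∀ i : Fin k, (ZMod (pv i))ˣ) (y : XG p N₀ pv qv 𝒪),
    y ∈ V ∧ w = diaG p N₀ pv qv 𝒪 a₁ 1 y - χ a₁ • y}

/-- **FREE at `V`, rank `d`** (shape of `IAFreeAt`). -/
def FreeAtG {𝒪 : Type} [CommRing 𝒪] (V : Submodule 𝒪 (XG p N₀ pv qv 𝒪)) (d : ℕ) : Prop :=
  ∀ (g₁ : ∀ i : Fin k, (ZMod (pv i))ˣ) (g₂ : ∀ j : Fin r, (ZMod (qv j))ˣ),
    (∀ i, orderOf (g₁ i) = pv i - 1) → (∀ j, orderOf (g₂ j) = qv j - 1) →
    ∃ b : Fin d → V, ∀ y : V,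
      ∃! c : Fin d → (∀ i : Fin k, Fin (p ^ padicValNat p (pv i - 1))) ×
          (∀ j : Fin r, Fin (p ^ padicValNat p (qv j - 1))) → 𝒪,
        (y : XG p N₀ pv qv 𝒪) =
          ∑ i, ∑ e, c i e • diaG p N₀ pv qv 𝒪 (fun i' => g₁ i' ^ (e.1 i' : ℕ))
            (fun j => g₂ j ^ (e.2 j : ℕ)) (b i)

end Obj

/-! ## The diamond operators (twin of `GlueB1`) -/

section Dia

variable (p N₀ : ℕ) {k r : ℕ} (pv : Fin k → ℕ) (qv : Fin r → ℕ)
  (𝒪 : Type) [CommRing 𝒪]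

theorem diaG_add (a₁ : ∀ i : Fin k, (ZMod (pv i))ˣ) (a₂ : ∀ j : Fin r, (ZMod (qv j))ˣ)
    (x y : XG p N₀ pv qv 𝒪) :
    diaG p N₀ pv qv 𝒪 a₁ a₂ (x + y) =
      diaG p N₀ pv qv 𝒪 a₁ a₂ x + diaG p N₀ pv qv 𝒪 a₁ a₂ y := rfl

theorem diaG_smul (a₁ : ∀ i : Fin k, (ZMod (pv i))ˣ) (a₂ : ∀ j : Fin r, (ZMod (qv j))ˣ)
    (c : 𝒪) (x : XG p N₀ pv qv 𝒪) :
    diaG p N₀ pv qv 𝒪 a₁ a₂ (c • x) = c • diaG p N₀ pv qv 𝒪 a₁ a₂ x := rfl

variable [NeZero (gLevel N₀ (Sum.elim pv qv))]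
  (hsurj : Function.Surjective (gRed N₀ (Sum.elim pv qv)))

include hsurj in
theorem diaG_one (x : XG p N₀ pv qv 𝒪) : diaG p N₀ pv qv 𝒪 1 1 x = x := by
  unfold diaG
  rw [pairU_one]
  exact diamondU_gLift_one p _ _ hsurj x

include hsurj in
theorem diaG_mul (a₁ b₁ : ∀ i : Fin k, (ZMod (pv i))ˣ) (a₂ b₂ : ∀ j : Fin r, (ZMod (qv j))ˣ)
    (x : XG p N₀ pv qv 𝒪) :
    diaG p N₀ pv qv 𝒪 (a₁ * b₁) (a₂ * b₂) x =
      diaG p N₀ pv qv 𝒪 a₁ a₂ (diaG p N₀ pv qv 𝒪 b₁ b₂ x) := by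
  unfold diaG
  rw [pairU_mul]
  exact diamondU_gLift_mul p _ _ hsurj _ _ x

include hsurj in
theorem diaG_pow (a₁ : ∀ i : Fin k, (ZMod (pv i))ˣ) (a₂ : ∀ j : Fin r, (ZMod (qv j))ˣ)
    (x : XG p N₀ pv qv 𝒪) :
    diaG p N₀ pv qv 𝒪 (fun i => a₁ i ^ p ^ padicValNat p (pv i - 1))
      (fun j => a₂ j ^ p ^ padicValNat p (qv j - 1)) x = x := by
  unfold diaG
  exact diamondU_gLift_of_mem p _ _ hsurj (pairU_mem_gPowSub p a₁ a₂) x

end Dia

/-! ## `V` as a module over a ring acting on it (twin of `VMod`) -/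

section Mod

variable {𝒪 : Type} [CommRing 𝒪] {X : Type} [AddCommGroup X] [Module 𝒪 X]
  {T : Type} [CommRing T] [Algebra 𝒪 T]

/-- `V` with the action of `T` through `a`. -/
def VModG (V : Submodule 𝒪 X) (_a : T →ₐ[𝒪] Module.End 𝒪 V) : Type := V

variable {V : Submodule 𝒪 X} {a : T →ₐ[𝒪] Module.End 𝒪 V}

noncomputable instance : AddCommGroup (VModG V a) := inferInstanceAs (AddCommGroup V)

noncomputable instance : Module T (VModG V a) :=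
  Module.compHom V (a : T →+* Module.End 𝒪 V)

/-- The identification `VModG V a = V`. -/
noncomputable def VModG.mk (v : V) : VModG V a := v

/-- The identification `VModG V a = V`. -/
noncomputable def VModG.val (v : VModG V a) : V := v

theorem VModG.smul_def (t : T) (v : VModG V a) : t • v = VModG.mk (a t (VModG.val v)) := rfl

theorem VModG.algebraMap_smul (c : 𝒪) (v : VModG V a) :
    algebraMap 𝒪 T c • v = VModG.mk (c • VModG.val v) := by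
  rw [VModG.smul_def, AlgHom.commutes]
  rfl

end Mod

/-! ## The glue -/

section Glue

variable {p : ℕ} [hpF : Fact p.Prime]
  {𝒪 : Type} [CommRing 𝒪] [IsDomain 𝒪] [IsDiscreteValuationRing 𝒪]
  [IsAdicComplete (maximalIdeal 𝒪) 𝒪]
  {ρbar : ResidualGaloisRep (ResidueField 𝒪)} {t : PType} {Smin Sig : Finset ℕ}
  {N₀ : ℕ} {k r : ℕ} {pv : Fin k → ℕ} {qv : Fin r → ℕ}
  [NeZero (wilesLevel p t Smin Sig)]
  {PQ : HeckePkg p 𝒪 ρbar t Smin Sig}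
  {Tset Uset : Set (ℕ × 𝒪)} {V : Submodule 𝒪 (XG p N₀ pv qv 𝒪)} {h : ℕ}
  {a : PQ.T →ₐ[𝒪] Module.End 𝒪 V}
  [NeZero (gLevel N₀ (Sum.elim pv qv))]
  (hV : IsLocPart (isMid_KG p N₀ (Sum.elim pv qv)) Tset Uset V)
  (hsurj : Function.Surjective (gRed N₀ (Sum.elim pv qv)))

/-- `V` is stable under the diamond operators. -/
theorem diaG_mem (hV : IsLocPart (isMid_KG p N₀ (Sum.elim pv qv)) Tset Uset V)
    (a₁ : ∀ i : Fin k, (ZMod (pv i))ˣ)
    (a₂ : ∀ j : Fin r, (ZMod (qv j))ˣ) {x : XG p N₀ pv qv 𝒪} (hx : x ∈ V) :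
    diaG p N₀ pv qv 𝒪 a₁ a₂ x ∈ V := by
  obtain ⟨e, -, he2, he3, -, -, heD, -⟩ := IsLocPart.exists_proj hV
  have h1 := heD (gLift N₀ (Sum.elim pv qv) (pairU a₁ a₂)) x
  rw [he3 x hx] at h1
  unfold diaG
  rw [← h1]
  exact he2 _

/-- The action of `T_Q` commutes with the diamond operators. -/
theorem a_diaG (hV : IsLocPart (isMid_KG p N₀ (Sum.elim pv qv)) Tset Uset V)
    (ha : ActsBy PQ V a (tOpTw (isMid_KG p N₀ (Sum.elim pv qv)) 𝒪 h))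
    (hsig : ∀ q : ℕ, q.Prime → q ∣ wilesLevel p t Smin Sig → q ∈ (↑Sig : Set ℕ))
    (hM : ∀ ℓ : ℕ, ℓ.Prime → ¬ ℓ ∣ wilesLevel p t Smin Sig → ℓ ∉ (↑Sig : Set ℕ) →
      ¬ ℓ ∣ gLevel N₀ (Sum.elim pv qv))
    (a₁ : ∀ i : Fin k, (ZMod (pv i))ˣ) (a₂ : ∀ j : Fin r, (ZMod (qv j))ˣ) (s : PQ.T) :
    ∀ v : V, ((a s ⟨diaG p N₀ pv qv 𝒪 a₁ a₂ v, diaG_mem hV a₁ a₂ v.2⟩ : V) :
        XG p N₀ pv qv 𝒪) = diaG p N₀ pv qv 𝒪 a₁ a₂ ((a s v : V) : XG p N₀ pv qv 𝒪) := by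
  refine pkg_induction PQ hsig
    (fun s => ∀ v : V, ((a s ⟨diaG p N₀ pv qv 𝒪 a₁ a₂ v, diaG_mem hV a₁ a₂ v.2⟩ : V) :
        XG p N₀ pv qv 𝒪) = diaG p N₀ pv qv 𝒪 a₁ a₂ ((a s v : V) : XG p N₀ pv qv 𝒪))
    ?_ ?_ ?_ ?_ s
  · intro c v
    rw [AlgHom.commutes, Module.algebraMap_end_apply, Module.algebraMap_end_apply,
      Submodule.coe_smul, Submodule.coe_smul, diaG_smul]
  · intro x y hx hy v
    rw [map_add, LinearMap.add_apply, LinearMap.add_apply, Submodule.coe_add,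
      Submodule.coe_add, diaG_add, hx v, hy v]
  · intro x y hx hy v
    rw [map_mul, Module.End.mul_apply, Module.End.mul_apply]
    have h1 : a y ⟨diaG p N₀ pv qv 𝒪 a₁ a₂ v, diaG_mem hV a₁ a₂ v.2⟩ =
        ⟨diaG p N₀ pv qv 𝒪 a₁ a₂ ((a y v : V) : XG p N₀ pv qv 𝒪),
          diaG_mem hV a₁ a₂ (a y v).2⟩ := Subtype.ext (hy v)
    rw [h1]
    exact hx (a y v)
  · intro ℓ hℓ hℓN hℓS v
    haveI : Fact ℓ.Prime := ⟨hℓ⟩
    have hℓM : ¬ ℓ ∣ gLevel N₀ (Sum.elim pv qv) := hM ℓ hℓ hℓN hℓS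
    rw [ha ℓ hℓ hℓN hℓS, ha ℓ hℓ hℓN hℓS]
    unfold tOpTw tOp diaG
    have h1 := diamondU_TK (A := 𝒪) (isMid_KG p N₀ (Sum.elim pv qv)) hℓM
      (gLift N₀ (Sum.elim pv qv) (pairU a₁ a₂))
      (v : XG p N₀ pv qv 𝒪)
    rw [show (⟨diamondU (isMid_KG p N₀ (Sum.elim pv qv))
        (gLift N₀ (Sum.elim pv qv) (pairU a₁ a₂))
        (v : XG p N₀ pv qv 𝒪), diaG_mem hV a₁ a₂ v.2⟩ : V).1 =
        diamondU (isMid_KG p N₀ (Sum.elim pv qv))
        (gLift N₀ (Sum.elim pv qv) (pairU a₁ a₂))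
        (v : XG p N₀ pv qv 𝒪) from rfl]
    rw [h1]
    exact diamondU_comm' p _ _ _ _ _

/-- The diamond action on `V`, `𝒪`-linearly. -/
noncomputable def diaLinG :
    (∀ i : Fin k, (ZMod (pv i))ˣ) × (∀ j : Fin r, (ZMod (qv j))ˣ) →* Module.End 𝒪 V where
  toFun d :=
    { toFun := fun v => ⟨diaG p N₀ pv qv 𝒪 d.1 d.2 v, diaG_mem hV d.1 d.2 v.2⟩
      map_add' := fun x y => Subtype.ext (diaG_add p N₀ pv qv 𝒪 d.1 d.2 _ _)
      map_smul' := fun c x => Subtype.ext (diaG_smul p N₀ pv qv 𝒪 d.1 d.2 c _) }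
  map_one' := by
    refine LinearMap.ext fun v => Subtype.ext ?_
    exact diaG_one p N₀ pv qv 𝒪 hsurj _
  map_mul' d d' := by
    refine LinearMap.ext fun v => Subtype.ext ?_
    exact diaG_mul p N₀ pv qv 𝒪 hsurj _ _ _ _ _

theorem coe_diaLinG (d : (∀ i : Fin k, (ZMod (pv i))ˣ) × (∀ j : Fin r, (ZMod (qv j))ˣ))
    (v : V) :
    ((diaLinG hV hsurj d v : V) : XG p N₀ pv qv 𝒪) = diaG p N₀ pv qv 𝒪 d.1 d.2 v := rfl

/-- The diamond action of the pivot group `∏ (ℤ/pv i)ˣ` on `V`. -/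
noncomputable def diaPivG : (∀ i : Fin k, (ZMod (pv i))ˣ) →* Module.End 𝒪 V :=
  (diaLinG hV hsurj).comp (MonoidHom.inl _ _)

theorem coe_diaPivG (a₁ : ∀ i : Fin k, (ZMod (pv i))ˣ) (v : V) :
    ((diaPivG hV hsurj a₁ v : V) : XG p N₀ pv qv 𝒪) = diaG p N₀ pv qv 𝒪 a₁ 1 v := rfl

/-- `chiRelG χ V` is the image of the `χ`-relations of the pivot action on `V`. -/
theorem chiRelG_eq_map (χ : (∀ i : Fin k, (ZMod (pv i))ˣ) →* 𝒪) :
    chiRelG p N₀ pv qv χ V =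
      (chiRelSpan (V := V) (diaPivG hV hsurj) χ).map V.subtype := by
  unfold chiRelG chiRelSpan
  rw [Submodule.map_span]
  congr 1
  ext w
  constructor
  · rintro ⟨a₁, y, hy, rfl⟩
    exact ⟨diaPivG hV hsurj a₁ ⟨y, hy⟩ - χ a₁ • ⟨y, hy⟩, ⟨a₁, ⟨y, hy⟩, rfl⟩, rfl⟩
  · rintro ⟨_, ⟨a₁, y, rfl⟩, rfl⟩
    exact ⟨a₁, y, y.2, rfl⟩

theorem mem_chiRelG_iff (χ : (∀ i : Fin k, (ZMod (pv i))ˣ) →* 𝒪) (v : V) :
    (v : XG p N₀ pv qv 𝒪) ∈ chiRelG p N₀ pv qv χ V ↔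
      v ∈ chiRelSpan (diaPivG hV hsurj) χ := by
  rw [chiRelG_eq_map hV hsurj χ, Submodule.mem_map]
  constructor
  · rintro ⟨v', hv', e⟩
    have : v' = v := Subtype.ext e
    rw [← this]
    exact hv'
  · intro hv
    exact ⟨v, hv, rfl⟩

/-! ### The action of `T_Q` preserves the `χ`-relations -/

section Comm

variable (ha : ActsBy PQ V a (tOpTw (isMid_KG p N₀ (Sum.elim pv qv)) 𝒪 h))
  (hsig : ∀ q : ℕ, q.Prime → q ∣ wilesLevel p t Smin Sig → q ∈ (↑Sig : Set ℕ))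
  (hM : ∀ ℓ : ℕ, ℓ.Prime → ¬ ℓ ∣ wilesLevel p t Smin Sig → ℓ ∉ (↑Sig : Set ℕ) →
    ¬ ℓ ∣ gLevel N₀ (Sum.elim pv qv))

include ha hsig hM in
theorem a_diaPivG (s : PQ.T) (a₁ : ∀ i : Fin k, (ZMod (pv i))ˣ) (v : V) :
    a s (diaPivG hV hsurj a₁ v) = diaPivG hV hsurj a₁ (a s v) :=
  Subtype.ext (a_diaG hV ha hsig hM a₁ 1 s v)

include ha hsig hM in
/-- The action of `T_Q` preserves the `χ`-relations. -/
theorem a_mem_chiRelSpanG (χ : (∀ i : Fin k, (ZMod (pv i))ˣ) →* 𝒪) (s : PQ.T) (v : V)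
    (h0 : v ∈ chiRelSpan (V := V) (diaPivG hV hsurj) χ) :
    a s v ∈ chiRelSpan (V := V) (diaPivG hV hsurj) χ := by
  have hf : ∀ (a₁ : ∀ i : Fin k, (ZMod (pv i))ˣ) (y : V),
      a s (diaPivG hV hsurj a₁ y) = diaPivG hV hsurj a₁ (a s y) := by
    intro a₁ y
    exact a_diaPivG hV hsurj ha hsig hM s a₁ y
  have key := @map_mem_chiRelSpan 𝒪 _ V _ _ _ _ (diaPivG hV hsurj) χ (a s)
  exact key hf h0

/-- The `χ`-relations as a `T_Q`-submodule of `VModG V a`. -/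
noncomputable def relSubG (χ : (∀ i : Fin k, (ZMod (pv i))ˣ) →* 𝒪) :
    Submodule PQ.T (VModG V a) where
  carrier := {v | VModG.val v ∈ chiRelSpan (V := V) (diaPivG hV hsurj) χ}
  add_mem' := by
    intro x y hx hy
    have h1 : VModG.val x + VModG.val y ∈ chiRelSpan (V := V) (diaPivG hV hsurj) χ :=
      Submodule.add_mem _ hx hy
    exact h1
  zero_mem' := by
    have h1 : (0 : V) ∈ chiRelSpan (V := V) (diaPivG hV hsurj) χ := Submodule.zero_mem _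
    exact h1
  smul_mem' := by
    intro s v hv
    have h0 : VModG.val v ∈ chiRelSpan (V := V) (diaPivG hV hsurj) χ := hv
    have h1 := a_mem_chiRelSpanG hV hsurj ha hsig hM χ s (VModG.val v) h0
    show VModG.val (s • v) ∈ chiRelSpan (V := V) (diaPivG hV hsurj) χ
    rw [VModG.smul_def]
    exact h1

theorem mem_relSubG (χ : (∀ i : Fin k, (ZMod (pv i))ˣ) →* 𝒪) (v : VModG V a) :
    v ∈ relSubG hV hsurj ha hsig hM χ ↔
      VModG.val v ∈ chiRelSpan (V := V) (diaPivG hV hsurj) χ := Iff.rfl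

end Comm

/-! ### Saturation of `chiRelG χ V` in `V` -/

section Sat

theorem diaPivG_pow (c : ∀ i : Fin k, (ZMod (pv i))ˣ) :
    diaPivG hV hsurj (fun i => c i ^ p ^ padicValNat p (pv i - 1)) = 1 := by
  refine LinearMap.ext fun v => Subtype.ext ?_
  rw [coe_diaPivG]
  have key := diaG_pow p N₀ pv qv 𝒪 hsurj c 1 (v : XG p N₀ pv qv 𝒪)
  have h1 : (fun j => (1 : ∀ j : Fin r, (ZMod (qv j))ˣ) j ^ p ^ padicValNat p (qv j - 1)) = 1 := by
    funext j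
    exact one_pow _
  rw [h1] at key
  exact key

/-- The sum over `(Fin d × E₂) × E₁` is the sum over `Fin d × (E₁ × E₂)`. -/
theorem coe_sum_reindexG {d : ℕ} (g₁ : ∀ i : Fin k, (ZMod (pv i))ˣ)
    (g₂ : ∀ j : Fin r, (ZMod (qv j))ˣ) (b : Fin d → V)
    (c' : Fin d × (∀ j : Fin r, Fin (p ^ padicValNat p (qv j - 1))) →
      (∀ i : Fin k, Fin (p ^ padicValNat p (pv i - 1))) → 𝒪) :
    ((∑ j : Fin d × (∀ j : Fin r, Fin (p ^ padicValNat p (qv j - 1))),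
        ∑ e : (∀ i : Fin k, Fin (p ^ padicValNat p (pv i - 1))),
          c' j e • diaPivG hV hsurj (fun i => g₁ i ^ (e i : ℕ))
            (diaLinG hV hsurj (1, fun j' => g₂ j' ^ (j.2 j' : ℕ)) (b j.1)) : V) :
        XG p N₀ pv qv 𝒪) =
      ∑ i : Fin d, ∑ e : (∀ i : Fin k, Fin (p ^ padicValNat p (pv i - 1))) ×
          (∀ j : Fin r, Fin (p ^ padicValNat p (qv j - 1))),
        c' (i, e.2) e.1 • diaG p N₀ pv qv 𝒪 (fun i' => g₁ i' ^ (e.1 i' : ℕ))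
          (fun j => g₂ j ^ (e.2 j : ℕ)) (b i) := by
  rw [Submodule.coe_sum, Fintype.sum_prod_type]
  refine Finset.sum_congr rfl fun i _ => ?_
  rw [Fintype.sum_prod_type, Finset.sum_comm]
  refine Finset.sum_congr rfl fun e₂ _ => ?_
  rw [Submodule.coe_sum]
  refine Finset.sum_congr rfl fun e₁ _ => ?_
  rw [Submodule.coe_smul]
  congr 1
  show diaG p N₀ pv qv 𝒪 (fun i => g₁ i ^ (e₁ i : ℕ)) 1
      (diaG p N₀ pv qv 𝒪 1 (fun j' => g₂ j' ^ (e₂ j' : ℕ)) (b i)) = _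
  rw [← diaG_mul p N₀ pv qv 𝒪 hsurj, mul_one, one_mul]

include hpF in
/-- **`V / chiRelG χ V` has no `𝒪`-torsion** (from the basis of FREE). -/
theorem chiRelG_saturated (hpvP : ∀ i, (pv i).Prime) (hpvd : ∀ i, p ∣ pv i - 1)
    (hqvP : ∀ j, (qv j).Prime) {d : ℕ} (hfree : FreeAtG p N₀ pv qv V d)
    (χ : (∀ i : Fin k, (ZMod (pv i))ˣ) →* 𝒪) (hχ : ∀ a₁, χ a₁ ^ p = 1)
    {l : 𝒪} (hl : l ≠ 0) {v : V}
    (hv : l • v ∈ chiRelSpan (V := V) (diaPivG hV hsurj) χ) :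
    v ∈ chiRelSpan (V := V) (diaPivG hV hsurj) χ := by
  haveI : ∀ i, NeZero (pv i) := fun i => ⟨(hpvP i).ne_zero⟩
  haveI : ∀ j, NeZero (qv j) := fun j => ⟨(hqvP j).ne_zero⟩
  choose g₁ hg₁ hgen₁ using fun i => exists_primitive_root_units (hpvP i)
  choose g₂ hg₂ _ using fun j => exists_primitive_root_units (hqvP j)
  have hm₁ : ∀ i, 0 < p ^ padicValNat p (pv i - 1) := fun i => pow_pos hpF.out.pos _
  have hm1 : ∀ i, 1 ≤ padicValNat p (pv i - 1) := fun i =>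
    one_le_padicValNat_of_dvd (Nat.sub_ne_zero_of_lt (hpvP i).one_lt) (hpvd i)
  obtain ⟨b, hb⟩ := hfree g₁ g₂ hg₁ hg₂
  refine mem_chiRelSpan_of_smul_mem
    (E := (∀ i : Fin k, Fin (p ^ padicValNat p (pv i - 1))))
    (J := Fin d × (∀ j : Fin r, Fin (p ^ padicValNat p (qv j - 1))))
    (γ := fun e i => g₁ i ^ (e i : ℕ))
    (b := fun j => diaLinG hV hsurj (1, fun j' => g₂ j' ^ (j.2 j' : ℕ)) (b j.1))
    (comboMap_bijective_of_existsUnique ?_) ?_ hl hv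
  · -- the basis
    intro y
    obtain ⟨c, hc, hcu⟩ := hb y
    refine ⟨fun j e => c j.1 (e, j.2), ?_, ?_⟩
    · apply Subtype.ext
      rw [coe_sum_reindexG hV hsurj g₁ g₂ b]
      exact hc
    · intro c' hc'
      have h1 := congrArg Subtype.val hc'
      rw [coe_sum_reindexG hV hsurj g₁ g₂ b] at h1
      have h2 := hcu (fun i e => c' (i, e.2) e.1) h1
      funext j e
      rw [← h2]
  · -- the exponents are permuted, compatibly with `χ`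
    intro a₁ e
    choose e₁ c₁ h₁ using fun i => exists_translate (hgen₁ i) (hm₁ i) (a₁ i) (e i)
    have h3 : a₁ * (fun i => g₁ i ^ (e i : ℕ)) =
        (fun i => g₁ i ^ (e₁ i : ℕ)) * fun i => c₁ i ^ p ^ padicValNat p (pv i - 1) :=
      funext h₁
    refine ⟨e₁, ?_, ?_⟩
    · rw [h3, map_mul, diaPivG_pow hV hsurj c₁, mul_one]
    · have h5 : (fun i => c₁ i ^ p ^ padicValNat p (pv i - 1)) =
          (fun i => c₁ i ^ p ^ (padicValNat p (pv i - 1) - 1)) ^ p := by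
        funext i
        rw [Pi.pow_apply, ← pow_mul, ← pow_succ, Nat.sub_add_cancel (hm1 i)]
      rw [h3, map_mul, h5, map_pow, hχ, mul_one]

end Sat

/-! ### From the points to the module -/

section Kill

variable [Finite (ResidueField 𝒪)] [CharZero 𝒪]
  (ha : ActsBy PQ V a (tOpTw (isMid_KG p N₀ (Sum.elim pv qv)) 𝒪 h))
  (hsig : ∀ q : ℕ, q.Prime → q ∣ wilesLevel p t Smin Sig → q ∈ (↑Sig : Set ℕ))
  (hM : ∀ ℓ : ℕ, ℓ.Prime → ¬ ℓ ∣ wilesLevel p t Smin Sig → ℓ ∉ (↑Sig : Set ℕ) →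
    ¬ ℓ ∣ gLevel N₀ (Sum.elim pv qv))

include hpF hV hsurj ha hsig hM in
/-- **KILL for `V / chiRelG χ V`, generic.**  An element of `T_Q` vanishing at every local
`p`-adic point through the annihilator of `V / chiRelG χ V` maps `V` into `chiRelG χ V`. -/
theorem kill_gen (hp𝒪 : (p : 𝒪) ∈ maximalIdeal 𝒪)
    (hpvP : ∀ i, (pv i).Prime) (hpvd : ∀ i, p ∣ pv i - 1)
    (hqvP : ∀ j, (qv j).Prime) {d : ℕ} (hfree : FreeAtG p N₀ pv qv V d)
    (χ : (∀ i : Fin k, (ZMod (pv i))ˣ) →* 𝒪) (hχ : ∀ a₁, χ a₁ ^ p = 1) (s : PQ.T)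
    (hs : ∀ P : Fermat.Agent.S31.PadicPoint p PQ.T, IsLocalHom P.χ →
      (∀ s' : PQ.T,
        (∀ v : V, ((a s' v : V) : XG p N₀ pv qv 𝒪) ∈ chiRelG p N₀ pv qv χ V) →
        P.χ s' = 0) → P.χ s = 0) :
    ∀ v : V, ((a s v : V) : XG p N₀ pv qv 𝒪) ∈ chiRelG p N₀ pv qv χ V := by
  haveI : IsReduced PQ.T := Fermat.Agent.S59.G4.H547.red _ _ hsig 𝒪 PQ.θ
  -- no `𝒪`-torsion
  have htf : ∀ l : 𝒪, l ≠ 0 → ∀ m : VModG V a ⧸ relSubG hV hsurj ha hsig hM χ,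
      algebraMap 𝒪 PQ.T l • m = 0 → m = 0 := by
    intro l hl m hm
    obtain ⟨v, rfl⟩ := Submodule.Quotient.mk_surjective _ m
    rw [← Submodule.Quotient.mk_smul, Submodule.Quotient.mk_eq_zero, mem_relSubG,
      VModG.algebraMap_smul] at hm
    rw [Submodule.Quotient.mk_eq_zero, mem_relSubG]
    exact chiRelG_saturated hV hsurj hpvP hpvd hqvP hfree χ hχ hl hm
  -- the annihilator
  have hann : ∀ s' : PQ.T,
      (∀ v : V, ((a s' v : V) : XG p N₀ pv qv 𝒪) ∈ chiRelG p N₀ pv qv χ V) →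
      ∀ m : VModG V a ⧸ relSubG hV hsurj ha hsig hM χ, s' • m = 0 := by
    intro s' hs' m
    obtain ⟨v, rfl⟩ := Submodule.Quotient.mk_surjective _ m
    rw [← Submodule.Quotient.mk_smul, Submodule.Quotient.mk_eq_zero, mem_relSubG,
      VModG.smul_def]
    exact (mem_chiRelG_iff hV hsurj χ _).mp (hs' (VModG.val v))
  have key := Fermat.Agent.S38.H113.kill p hp𝒪 htf s
    (fun P hP hP' => hs P hP (fun s' hs' => hP' s' (hann s' hs')))
  intro v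
  have h1 := key (Submodule.Quotient.mk (VModG.mk v))
  rw [← Submodule.Quotient.mk_smul, Submodule.Quotient.mk_eq_zero, mem_relSubG,
    VModG.smul_def] at h1
  exact (mem_chiRelG_iff hV hsurj χ _).mpr h1

end Kill

end Glue

end Fermat.Agent.S38.H473.Gen
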