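import Fermat.Agent.S38.H473.KillGen

/-!
# Row S59 (moonshot), cell (B2) — IA-NU / IA-ST from their pointwise forms, ANY type `t`
# (helper473)

On top of `KillGen.lean` (generic KILL): the glue `FREE → NU-pt → NU`, `FREE → ST-pt → ST` at
`(V, a)`, for ANY type `t : PType`, ANY base level, with NO `5 ≤ p`.

* `ThroughAnnG`, `NuPtAtG`, `StPtAtG` : the pointwise statements (twins of `ThroughAnn`,
  `IANuPtAt`, `IAStPtAt` of `PtSpec.lean`);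
* `NuAtG`, `StAtG` : the module statements (twins of `IANuAt`, `IAStAt` of `Hecke/Spec3.lean`);
* `nuAtG_of_pt`, `stAtG_of_pt` : the glue, generic (any `Sig`, any `N₀`, any `Tset`, `Uset`);
* `basic_factsT` : the standing facts at `N₀ = wilesLevel p t Smin Smin`,
  `Sig = Smin ∪ Piv ∪ Q`, for every `t`;
* `nuT_of_pt`, `stT_of_pt` : the glue at these levels, from `ResidualHyp`, `IsPivotSet`,
  `IsTWSet` (the binders of the leaves of layer 3), for every `t`.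
-/

set_option autoImplicit false
set_option linter.unusedSectionVars false
set_option linter.style.haveILetI false

open Polynomial IsLocalRing CongruenceSubgroup
open scoped MatrixGroups

namespace Fermat.Agent.S38.H473.Gen

open Fermat.Agent.S59.Arch Fermat.Agent.S59.TW.H959 Fermat.Agent.S59.TW Fermat.Agent.S59.H765
open Fermat.Agent.S59.TW.H653 Fermat.Agent.S59.TW.Aut
open Fermat.Agent.S38.IA Fermat.Agent.S38.IA.Hecke
open Fermat.Agent.S38.H473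
open CuspForm

/-! ## The statements at `(V, a)` -/

section At

variable {p : ℕ}
  {𝒪 : Type} [CommRing 𝒪] [IsDomain 𝒪] [IsDiscreteValuationRing 𝒪]
  [IsAdicComplete (maximalIdeal 𝒪) 𝒪]
  {ρbar : ResidualGaloisRep (ResidueField 𝒪)} {t : PType} {Smin Sig : Finset ℕ}
  {N₀ : ℕ} {k r : ℕ} {pv : Fin k → ℕ} {qv : Fin r → ℕ}
  [NeZero (wilesLevel p t Smin Sig)]

/-- The point `x` of `T_Q` is through the annihilator of `V / chiRelG χ V`. -/
def ThroughAnnG (PQ : HeckePkg p 𝒪 ρbar t Smin Sig)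
    (V : Submodule 𝒪 (XG p N₀ pv qv 𝒪)) (a : PQ.T →ₐ[𝒪] Module.End 𝒪 V)
    (χ : (∀ i : Fin k, (ZMod (pv i))ˣ) →* 𝒪) {R : Type} [CommRing R] (x : PQ.T →+* R) : Prop :=
  ∀ s : PQ.T, (∀ v : V, ((a s v : V) : XG p N₀ pv qv 𝒪) ∈ chiRelG p N₀ pv qv χ V) →
    x s = 0

/-- **NU at `(V, a)`, pointwise** (twin of `IANuPtAt`). -/
def NuPtAtG (Piv : Finset ℕ) (PQ : HeckePkg p 𝒪 ρbar t Smin Sig)
    (V : Submodule 𝒪 (XG p N₀ pv qv 𝒪)) (a : PQ.T →ₐ[𝒪] Module.End 𝒪 V) : Prop :=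
  ∀ χ : (∀ i : Fin k, (ZMod (pv i))ˣ) →* 𝒪, IsPivChar p pv χ →
    ∀ (P : Fermat.Agent.S31.PadicPoint p PQ.T) (hP : IsLocalHom P.χ),
      ThroughAnnG PQ V a χ P.χ →
      ∀ q ∈ Piv, ¬ (PQ.H.ρ.baseChangeAlong P.χ hP).IsUnipotentOnInertiaAt q

/-- **ST at `(V, a)`, pointwise** (twin of `IAStPtAt`). -/
def StPtAtG (Piv : Finset ℕ) (PQ : HeckePkg p 𝒪 ρbar t Smin Sig)
    (V : Submodule 𝒪 (XG p N₀ pv qv 𝒪)) (a : PQ.T →ₐ[𝒪] Module.End 𝒪 V) : Prop :=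
  ∀ (P : Fermat.Agent.S31.PadicPoint p PQ.T), IsLocalHom P.χ →
    ThroughAnnG PQ V a 1 P.χ →
    ∀ q ∈ Piv, ∀ Pl : ValuationSubring (AlgebraicClosure ℚ), Pl.LiesOverPrime q →
      ∀ φ : AlgebraicClosure ℚ ≃ₐ[ℚ] AlgebraicClosure ℚ, Pl.IsFrobeniusAt φ q →
        P.χ (PQ.H.ρ.trace φ ^ 2 - ((1 + q : ℕ) : PQ.T) ^ 2) = 0

/-- **NU at `(V, a)`** (twin of `IANuAt`). -/
def NuAtG (Piv : Finset ℕ) (PQ : HeckePkg p 𝒪 ρbar t Smin Sig)
    (V : Submodule 𝒪 (XG p N₀ pv qv 𝒪)) (a : PQ.T →ₐ[𝒪] Module.End 𝒪 V) : Prop :=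
  ∀ χ : (∀ i : Fin k, (ZMod (pv i))ˣ) →* 𝒪, IsPivChar p pv χ →
    ∀ s : PQ.T,
      (∀ (𝒪' : Type) [CommRing 𝒪'] [IsDomain 𝒪'] [IsDiscreteValuationRing 𝒪'] [CharZero 𝒪']
          [Algebra 𝒪 𝒪'] (x : PQ.T →ₐ[𝒪] 𝒪') (hx : IsLocalHom (x : PQ.T →+* 𝒪')),
          (∀ q ∈ Piv,
            ¬ (PQ.H.ρ.baseChangeAlong (x : PQ.T →+* 𝒪') hx).IsUnipotentOnInertiaAt q) →
          x s = 0) →
      ∀ v : V, ((a s v : V) : XG p N₀ pv qv 𝒪) ∈ chiRelG p N₀ pv qv χ V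

/-- **ST at `(V, a)`** (twin of `IAStAt`). -/
def StAtG (Piv : Finset ℕ) (PQ : HeckePkg p 𝒪 ρbar t Smin Sig)
    (V : Submodule 𝒪 (XG p N₀ pv qv 𝒪)) (a : PQ.T →ₐ[𝒪] Module.End 𝒪 V) : Prop :=
  ∀ q ∈ Piv, ∀ P : ValuationSubring (AlgebraicClosure ℚ), P.LiesOverPrime q →
    ∀ φ : AlgebraicClosure ℚ ≃ₐ[ℚ] AlgebraicClosure ℚ, P.IsFrobeniusAt φ q →
      ∀ v : V, ((a (PQ.H.ρ.trace φ ^ 2 - ((1 + q : ℕ) : PQ.T) ^ 2) v : V) :
        XG p N₀ pv qv 𝒪) ∈ chiRelG p N₀ pv qv 1 V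

end At

/-! ## The glue at `(V, a)`, generic -/

section GlueAt

variable {p : ℕ} [hpF : Fact p.Prime]
  {𝒪 : Type} [CommRing 𝒪] [IsDomain 𝒪] [IsDiscreteValuationRing 𝒪]
  [IsAdicComplete (maximalIdeal 𝒪) 𝒪] [Finite (ResidueField 𝒪)] [CharZero 𝒪]
  {ρbar : ResidualGaloisRep (ResidueField 𝒪)} {t : PType} {Smin Sig : Finset ℕ}
  {N₀ : ℕ} {k r : ℕ} {pv : Fin k → ℕ} {qv : Fin r → ℕ}
  [NeZero (wilesLevel p t Smin Sig)]
  {PQ : HeckePkg p 𝒪 ρbar t Smin Sig}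
  {Tset Uset : Set (ℕ × 𝒪)} {V : Submodule 𝒪 (XG p N₀ pv qv 𝒪)} {h : ℕ}
  {a : PQ.T →ₐ[𝒪] Module.End 𝒪 V}
  [NeZero (gLevel N₀ (Sum.elim pv qv))]
  (hV : IsLocPart (isMid_KG p N₀ (Sum.elim pv qv)) Tset Uset V)
  (hsurj : Function.Surjective (gRed N₀ (Sum.elim pv qv)))
  (ha : ActsBy PQ V a (tOpTw (isMid_KG p N₀ (Sum.elim pv qv)) 𝒪 h))
  (hsig : ∀ q : ℕ, q.Prime → q ∣ wilesLevel p t Smin Sig → q ∈ (↑Sig : Set ℕ))
  (hM : ∀ ℓ : ℕ, ℓ.Prime → ¬ ℓ ∣ wilesLevel p t Smin Sig → ℓ ∉ (↑Sig : Set ℕ) →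
    ¬ ℓ ∣ gLevel N₀ (Sum.elim pv qv))
  (hp𝒪 : (p : 𝒪) ∈ maximalIdeal 𝒪)
  (hpvP : ∀ i, (pv i).Prime) (hpvd : ∀ i, p ∣ pv i - 1) (hqvP : ∀ j, (qv j).Prime)

include hpF hV hsurj ha hsig hM hp𝒪 hpvP hpvd hqvP in
/-- **NU from its pointwise form**, generic. -/
theorem nuAtG_of_pt {d : ℕ} (hfree : FreeAtG p N₀ pv qv V d) (Piv : Finset ℕ)
    (hpt : NuPtAtG Piv PQ V a) : NuAtG Piv PQ V a := by
  intro χ hχ s hs
  refine kill_gen hV hsurj ha hsig hM hp𝒪 hpvP hpvd hqvP hfree χ hχ.1 s ?_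
  intro P hP hthrough
  letI : Algebra 𝒪 P.O := (P.χ.comp (algebraMap 𝒪 PQ.T)).toAlgebra
  let x : PQ.T →ₐ[𝒪] P.O := { P.χ with commutes' := fun _ => rfl }
  exact hs P.O x hP (hpt χ hχ P hP hthrough)

include hpF hV hsurj ha hsig hM hp𝒪 hpvP hpvd hqvP in
/-- **ST from its pointwise form**, generic. -/
theorem stAtG_of_pt {d : ℕ} (hfree : FreeAtG p N₀ pv qv V d) (Piv : Finset ℕ)
    (hpt : StPtAtG Piv PQ V a) : StAtG Piv PQ V a := by
  intro q hqP Pl hPl φ hφ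
  refine kill_gen hV hsurj ha hsig hM hp𝒪 hpvP hpvd hqvP hfree 1
    (fun _ => by rw [MonoidHom.one_apply, one_pow]) _ ?_
  intro P hP hthrough
  exact hpt P hP hthrough q hqP Pl hPl φ hφ

end GlueAt

/-! ## The standing facts, any type `t` -/

section Facts

variable {p : ℕ} [hpF : Fact p.Prime]
  {𝒪 : Type} [CommRing 𝒪] [IsDomain 𝒪] [IsDiscreteValuationRing 𝒪]
  [IsAdicComplete (maximalIdeal 𝒪) 𝒪]
  {ρbar : ResidualGaloisRep (ResidueField 𝒪)} {Smin Piv : Finset ℕ}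
  {k r : ℕ} {pv : Fin k → ℕ} {qv : Fin r → ℕ}

include hpF in
/-- The primes, the Chinese remainder theorem and the levels, for every type `t`. -/
theorem basic_factsT (t : PType) (h : ResidualHyp p 𝒪 ρbar Smin)
    (hPiv : IsPivotSet p ρbar Smin Piv)
    (hpv : Function.Injective pv) (hpvPiv : Finset.univ.image pv = Piv)
    {n : ℕ} (hq : IsTWSet p ρbar (Smin ∪ Piv) n qv) :
    (∀ i, (pv i).Prime) ∧ (∀ i, p ∣ pv i - 1) ∧ (∀ j, (qv j).Prime) ∧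
      Function.Surjective (gRed (wilesLevel p t Smin Smin) (Sum.elim pv qv)) ∧
      gLevel (wilesLevel p t Smin Smin) (Sum.elim pv qv) ≠ 0 ∧
      (∀ q : ℕ, q.Prime →
        q ∣ wilesLevel p t Smin (Smin ∪ Piv ∪ Finset.univ.image qv) →
        q ∈ (↑(Smin ∪ Piv ∪ Finset.univ.image qv) : Set ℕ)) ∧
      (∀ ℓ : ℕ, ℓ.Prime →
        ¬ ℓ ∣ wilesLevel p t Smin (Smin ∪ Piv ∪ Finset.univ.image qv) →
        ℓ ∉ (↑(Smin ∪ Piv ∪ Finset.univ.image qv) : Set ℕ) →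
        ¬ ℓ ∣ gLevel (wilesLevel p t Smin Smin) (Sum.elim pv qv)) := by
  obtain ⟨hqinj, hqv, -⟩ := id hq
  have hpvMem : ∀ i, pv i ∈ Piv := fun i => by
    rw [← hpvPiv]
    exact Finset.mem_image_of_mem pv (Finset.mem_univ i)
  have hpvP : ∀ i, (pv i).Prime := fun i => (hPiv (pv i) (hpvMem i)).1
  have hpvd : ∀ i, p ∣ pv i - 1 := fun i => (hPiv (pv i) (hpvMem i)).2.2.1
  have hqvP : ∀ j, (qv j).Prime := fun j => (hqv j).1
  have hPivP : ∀ q ∈ Piv, q.Prime := fun q hq' => (hPiv q hq').1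
  have hQP : ∀ q ∈ Finset.univ.image qv, q.Prime := by
    intro q hq'
    obtain ⟨j, -, rfl⟩ := Finset.mem_image.mp hq'
    exact hqvP j
  have hSigP : ∀ q ∈ Smin ∪ Piv ∪ Finset.univ.image qv, q.Prime := by
    intro q hq'
    rcases Finset.mem_union.mp hq' with h' | h'
    · rcases Finset.mem_union.mp h' with h'' | h''
      · exact h.hSmin q h''
      · exact hPivP q h''
    · exact hQP q h'
  have hsub : Smin ⊆ Smin ∪ Piv ∪ Finset.univ.image qv :=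
    Finset.subset_union_left.trans Finset.subset_union_left
  have hpvSig : ∀ i, pv i ∈ Smin ∪ Piv ∪ Finset.univ.image qv := fun i =>
    Finset.mem_union_left _ (Finset.mem_union_right _ (hpvMem i))
  have hqvSig : ∀ j, qv j ∈ Smin ∪ Piv ∪ Finset.univ.image qv := fun j =>
    Finset.mem_union_right _ (Finset.mem_image_of_mem qv (Finset.mem_univ j))
  have hprime : ∀ s, (Sum.elim pv qv s).Prime := by
    intro s
    cases s with
    | inl i => exact hpvP i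
    | inr j => exact hqvP j
  have hinj : Function.Injective (Sum.elim pv qv) := by
    intro s s' hss
    cases s with
    | inl i =>
      cases s' with
      | inl i' => exact congrArg Sum.inl (hpv hss)
      | inr j' =>
        exfalso
        have h1 : pv i = qv j' := hss
        exact (hqv j').2.1 (Finset.mem_union_right _ (h1 ▸ hpvMem i))
    | inr j =>
      cases s' with
      | inl i' =>
        exfalso
        have h1 : qv j = pv i' := hss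
        exact (hqv j).2.1 (Finset.mem_union_right _ (h1.symm ▸ hpvMem i'))
      | inr j' => exact congrArg Sum.inr (hqinj hss)
  have hN₀ : wilesLevel p t Smin Smin ≠ 0 := wilesLevel_ne_zero hpF.out h.hSmin h.hSmin
  refine ⟨hpvP, hpvd, hqvP, gRed_surjective _ _ hN₀ hinj hprime,
    gLevel_ne_zero _ _ hN₀ hprime, ?_, ?_⟩
  · intro q hq' hd'
    exact Finset.mem_coe.mpr
      (Fermat.Agent.S59.Arch.mem_of_prime_dvd_wilesLevel hpF.out h.hSmin hSigP h.hpSmin hsub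
        q hq' hd')
  · intro ℓ hℓ _ hℓS hdvd
    apply hℓS
    rcases (Nat.Prime.dvd_mul hℓ).mp hdvd with h1 | h1
    · exact Finset.mem_coe.mpr (hsub (Fermat.Agent.S59.Arch.mem_of_prime_dvd_wilesLevel
        hpF.out h.hSmin h.hSmin h.hpSmin (Finset.Subset.refl _) ℓ hℓ h1))
    · obtain ⟨s, -, hs⟩ := (Prime.dvd_finsetProd_iff hℓ.prime _).mp h1
      have h2 : ℓ = Sum.elim pv qv s := (Nat.prime_dvd_prime_iff_eq hℓ (hprime s)).mp hs
      rw [h2]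
      cases s with
      | inl i => exact Finset.mem_coe.mpr (hpvSig i)
      | inr j => exact Finset.mem_coe.mpr (hqvSig j)

end Facts

/-! ## The glue at the levels of Ihara avoidance, any type `t` -/

section T

variable (p : ℕ) [hpF : Fact p.Prime]
  (𝒪 : Type) [CommRing 𝒪] [IsDomain 𝒪] [IsDiscreteValuationRing 𝒪]
  [IsAdicComplete (maximalIdeal 𝒪) 𝒪] [Finite (ResidueField 𝒪)] [CharZero 𝒪]
  (ρbar : ResidualGaloisRep (ResidueField 𝒪)) (Smin : Finset ℕ)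
  (h : ResidualHyp p 𝒪 ρbar Smin) (t : PType)
  (Piv : Finset ℕ) (hPiv : IsPivotSet p ρbar Smin Piv)
  (k : ℕ) (pv : Fin k → ℕ) (hpv : Function.Injective pv)
  (hpvPiv : Finset.univ.image pv = Piv)
  (n r : ℕ) (qv : Fin r → ℕ) (hq : IsTWSet p ρbar (Smin ∪ Piv) n qv)
  [NeZero (wilesLevel p t Smin (Smin ∪ Piv ∪ Finset.univ.image qv))]
  (PQ : HeckePkg p 𝒪 ρbar t Smin (Smin ∪ Piv ∪ Finset.univ.image qv))
  (Tset Uset : Set (ℕ × 𝒪))
  (V : Submodule 𝒪 (XG p (wilesLevel p t Smin Smin) pv qv 𝒪)) (hh : ℕ)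
  (a : PQ.T →ₐ[𝒪] Module.End 𝒪 V)
  (hV : IsLocPart (isMid_KG p (wilesLevel p t Smin Smin) (Sum.elim pv qv)) Tset Uset V)
  (ha : ActsBy PQ V a (tOpTw (isMid_KG p (wilesLevel p t Smin Smin) (Sum.elim pv qv)) 𝒪 hh))
  (d : ℕ) (hfree : FreeAtG p (wilesLevel p t Smin Smin) pv qv V d)

include hpF h hPiv hpv hpvPiv hq hV ha hfree in
/-- **IA-NU from its pointwise form, any type `t`, any odd `p`.** -/
theorem nuT_of_pt (hpt : NuPtAtG Piv PQ V a) : NuAtG Piv PQ V a := by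
  obtain ⟨hpvP, hpvd, hqvP, hsurj, hMne, hsig, hM⟩ := basic_factsT t h hPiv hpv hpvPiv hq
  haveI : NeZero (gLevel (wilesLevel p t Smin Smin) (Sum.elim pv qv)) := ⟨hMne⟩
  exact nuAtG_of_pt hV hsurj ha hsig hM h.hp𝒪 hpvP hpvd hqvP hfree Piv hpt

include hpF h hPiv hpv hpvPiv hq hV ha hfree in
/-- **IA-ST from its pointwise form, any type `t`, any odd `p`.** -/
theorem stT_of_pt (hpt : StPtAtG Piv PQ V a) : StAtG Piv PQ V a := by
  obtain ⟨hpvP, hpvd, hqvP, hsurj, hMne, hsig, hM⟩ := basic_factsT t h hPiv hpv hpvPiv hq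
  haveI : NeZero (gLevel (wilesLevel p t Smin Smin) (Sum.elim pv qv)) := ⟨hMne⟩
  exact stAtG_of_pt hV hsurj ha hsig hM h.hp𝒪 hpvP hpvd hqvP hfree Piv hpt

end T

end Fermat.Agent.S38.H473.Gen
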